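/-
P-FF / FF-G7-DIV (helper56): the residual divisor, abstract form.

`FibreAx r Og red` axiomatises what is used of the Gauss ring: divisors of functions exist,
`r_* div f = div (red f)` for `f ∈ Og` with nonzero reduction, and such `f` are units of `Og`.
All the divisor bookkeeping is done fibre by fibre.
-/
import Fermat.Agent.H94.FF.G7Interfaces
import Fermat.Agent.H23.PlaceBasic

set_option autoImplicit false
set_option linter.style.haveILetI false
set_option linter.unusedSectionVars false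

noncomputable section

open AlgebraicCurve Fermat.Agent.H27.ESD Fermat.Agent.H94.FF

namespace Fermat.Agent.H56.FF

open Classical

section OrdLemmas

variable {K F : Type*} [Field K] [Field F] [Algebra K F]

theorem ord_prod_of_ne_zero (P : Place K F) {ι : Type*} (s : Finset ι) (f : ι → F)
    (hf : ∀ i ∈ s, f i ≠ 0) : P.ord (∏ i ∈ s, f i) = ∑ i ∈ s, P.ord (f i) := by
  classical
  induction s using Finset.induction_on with
  | empty => simp [Place.ord_one]
  | insert a s ha ih =>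
    rw [Finset.prod_insert ha, Finset.sum_insert ha,
      P.ord_mul (hf a (Finset.mem_insert_self a s))
        (Finset.prod_ne_zero_iff.mpr fun i hi => hf i (Finset.mem_insert_of_mem hi)),
      ih (fun i hi => hf i (Finset.mem_insert_of_mem hi))]

theorem ord_const_mul (P : Place K F) {c : K} (hc : c ≠ 0) {f : F} (hf : f ≠ 0) :
    P.ord (algebraMap K F c * f) = P.ord f := by
  rw [P.ord_mul ((map_ne_zero _).mpr hc) hf, Fermat.Agent.H23.ord_algebraMap, zero_add]

theorem ord_mul_inv (P : Place K F) {f h : F} (hf : f ≠ 0) (hh : h ≠ 0) :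
    P.ord (f * h⁻¹) = P.ord f - P.ord h := by
  rw [P.ord_mul hf (inv_ne_zero hh), P.ord_inv]
  ring

theorem ord_ge_of_mem_rr_single (Pinf : Place K F) (n : ℕ) {f : F}
    (hf : f ∈ riemannRochSpace (Finsupp.single Pinf (n : ℤ))) (P : Place K F) :
    (if Pinf = P then -(n : ℤ) else 0) ≤ P.ord f := by
  rcases (mem_riemannRochSpace_iff.mp hf) P with h | h
  · rw [h, Place.ord_zero]
    split_ifs <;> omega
  · rw [Finsupp.single_apply] at h
    split_ifs at h ⊢ <;> omega

end OrdLemmas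

section Fibre

variable {K F k Fk : Type*} [Field K] [Field F] [Algebra K F] [Field k] [Field Fk]
  [Algebra k Fk]

/-- what is used of the Gauss ring -/
structure FibreAx (r : Place K F → Place k Fk) (Og : Subring F) (red : Og →+* Fk) : Prop where
  hdiv : ∀ f : F, f ≠ 0 → ∃ D : Divisor K F, ∀ P, D P = P.ord f
  hmap : ∀ f : Og, red f ≠ 0 → ∀ D : Divisor K F, (∀ P, D P = P.ord (f : F)) →
    ∀ Q, Finsupp.mapDomain r D Q = Q.ord (red f)
  hinv : ∀ f : Og, red f ≠ 0 → (f : F)⁻¹ ∈ Og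

variable {r : Place K F → Place k Fk} {Og : Subring F} {red : Og →+* Fk}

theorem coe_ne_zero_of_red {f : Og} (hf : red f ≠ 0) : (f : F) ≠ 0 := by
  intro h
  apply hf
  have h1 : f = 0 := Subtype.ext h
  rw [h1, map_zero]

/-- **general fibre lemma** -/
theorem FibreAx.ord_eq_of_le (H : FibreAx r Og red) (f : Og) (hf : red f ≠ 0)
    (Q : Place k Fk) (C : Divisor K F) (hle : ∀ P, r P = Q → C P ≤ P.ord (f : F))
    (hsum : Finsupp.mapDomain r C Q = Q.ord (red f)) (P : Place K F) (hP : r P = Q) :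
    P.ord (f : F) = C P := by
  obtain ⟨D, hD⟩ := H.hdiv _ (coe_ne_zero_of_red hf)
  have h1 := H.hmap f hf D hD Q
  have h2 := Fermat.Agent.H18.rv_le_mapDomain r (D - C) Q P hP (fun P1 h => by
    rw [Finsupp.sub_apply, hD]
    have := hle P1 h
    omega)
  simp only [Finsupp.mapDomain_sub, Finsupp.sub_apply] at h2
  rw [h1, hsum, sub_self, hD] at h2
  have := hle P hP
  omega

theorem FibreAx.ord_eq_single (H : FibreAx r Og red) (f : Og) (hf : red f ≠ 0)
    (Q : Place k Fk) (P₀ : Place K F) (hP₀ : r P₀ = Q) (n : ℤ) (hn : Q.ord (red f) = n)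
    (hle : ∀ P, r P = Q → (if P₀ = P then n else 0) ≤ P.ord (f : F))
    (P : Place K F) (hP : r P = Q) : P.ord (f : F) = if P₀ = P then n else 0 := by
  classical
  have h1 := H.ord_eq_of_le f hf Q (Finsupp.single P₀ n)
    (fun P1 h1 => by rw [Finsupp.single_apply]; exact hle P1 h1)
    (by rw [Finsupp.mapDomain_single, hP₀, Finsupp.single_eq_same, hn]) P hP
  rw [h1, Finsupp.single_apply]

theorem FibreAx.ord_eq_zero (H : FibreAx r Og red) (f : Og) (hf : red f ≠ 0)
    (Q : Place k Fk) (h0 : Q.ord (red f) = 0) (hnp : ∀ P, r P = Q → 0 ≤ P.ord (f : F))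
    (P : Place K F) (hP : r P = Q) : P.ord (f : F) = 0 := by
  have h1 := H.ord_eq_of_le f hf Q 0
    (fun P1 h1 => by rw [Finsupp.zero_apply]; exact hnp P1 h1)
    (by rw [Finsupp.mapDomain_zero, Finsupp.zero_apply, h0]) P hP
  rw [h1, Finsupp.zero_apply]

/-- existence of a zero in the disc of a zero of the reduction -/
theorem FibreAx.exists_zero (H : FibreAx r Og red) (f : Og) (Q : Place k Fk)
    (h1 : Q.ord (red f) = 1) (hnp : ∀ P, r P = Q → 0 ≤ P.ord (f : F)) :
    ∃ P₀, r P₀ = Q ∧ 1 ≤ P₀.ord (f : F) := by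
  have hf : red f ≠ 0 := by
    intro h
    rw [h, Place.ord_zero] at h1
    omega
  by_contra hcon
  simp only [not_exists, not_and, not_le] at hcon
  obtain ⟨D, hD⟩ := H.hdiv _ (coe_ne_zero_of_red hf)
  have h2 := H.hmap f hf D hD Q
  have h3 := Fermat.Agent.H18.rv_mapDomain_nonneg_fibre r (-D) Q (fun P hP => by
    rw [Finsupp.neg_apply, hD]
    have := hcon P hP
    have := hnp P hP
    omega)
  rw [← Finsupp.mapDomain.addMonoidHom_apply, map_neg, Finsupp.mapDomain.addMonoidHom_apply,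
    Finsupp.neg_apply, h2, h1] at h3
  omega

/-- sums over `Fin g ⊕ Fin g` concentrated on the fibre of `jproj` over `i` -/
theorem sum_jproj_ite {g : ℕ} {M : Type*} [AddCommMonoid M] (i : Fin g)
    (h : Fin g ⊕ Fin g → M) :
    ∑ a, (if jproj a = i then h a else 0) = h (Sum.inl i) + h (Sum.inr i) := by
  rw [Fintype.sum_sum_type]
  have h1 : ∀ a₁ : Fin g, (if jproj (Sum.inl a₁ : Fin g ⊕ Fin g) = i then h (Sum.inl a₁) else 0) =
      if a₁ = i then h (Sum.inl a₁) else 0 := fun _ => rfl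
  have h2 : ∀ a₁ : Fin g, (if jproj (Sum.inr a₁ : Fin g ⊕ Fin g) = i then h (Sum.inr a₁) else 0) =
      if a₁ = i then h (Sum.inr a₁) else 0 := fun _ => rfl
  simp only [h1, h2]
  rw [Finset.sum_ite_eq', Finset.sum_ite_eq', if_pos (Finset.mem_univ i),
    if_pos (Finset.mem_univ i)]

/-- **FF-G7-DIV, abstract form.** -/
theorem residual_abstract {g : ℕ} (H : FibreAx r Og red)
    (Qs : Fin g → Place k Fk) (hQinj : Function.Injective Qs)
    (O : Fin g → Place K F) (t : Fin g → Og)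
    (hO : ∀ i, r (O i) = Qs i) (ht1 : ∀ i, 1 ≤ (O i).ord (t i : F))
    (ht2 : ∀ i, (Qs i).ord (red (t i)) = 1)
    (ht3 : ∀ i P1, r P1 = Qs i → 0 ≤ P1.ord (t i : F))
    (Pinf : Place K F) (nn : Fin g ⊕ Fin g → ℕ) (v : Fin g ⊕ Fin g → Og)
    (Zx : Fin g ⊕ Fin g → Finset (Place k Fk))
    (hvL : ∀ a, (v a : F) ∈ riemannRochSpace (Finsupp.single Pinf (nn a : ℤ)))
    (hAux : IsAuxFamily Qs (r Pinf) nn (fun a => red (v a)) Zx)
    (Pt : Fin g ⊕ Fin g → Place K F) (hPt : ∀ a, r (Pt a) = Qs (jproj a))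
    (hvPt : ∀ a, 1 ≤ (Pt a).ord (v a : F))
    (F2 : Og)
    (hF2L : (F2 : F) ∈ riemannRochSpace (Finsupp.single Pinf (((∑ a, nn a : ℕ)) : ℤ)))
    (γ : k) (hγ : γ ≠ 0) (hred : red F2 = algebraMap k Fk γ * ∏ a, red (v a))
    (hF2O : ∀ i, 1 ≤ (O i).ord (F2 : F))
    (hF2E : ∀ a, ∀ v' ∈ Zx a, ∀ P1, r P1 = v' → 1 ≤ P1.ord (v a : F) →
      1 ≤ P1.ord (F2 : F)) :
    ∃ P'' : Fin g → Place K F, (∀ i, r (P'' i) = Qs i) ∧
      (∀ i, 1 ≤ (P'' i).ord ((F2 : F) * (t i : F)⁻¹)) ∧
      ∃ w : F, w ≠ 0 ∧ ∀ P : Place K F,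
        P.ord w = ((∑ i, (Finsupp.single (P'' i) (1 : ℤ) - Finsupp.single (O i) 1)
          - ∑ a, (Finsupp.single (Pt a) (1 : ℤ) - Finsupp.single (O (jproj a)) 1) :
            Divisor K F)) P := by
  have hQne : ∀ i, Qs i ≠ r Pinf := hAux.qinf_ne
  have hpole : ∀ a, (r Pinf).ord (red (v a)) = -(nn a : ℤ) := hAux.pole
  have hzmain : ∀ a, (Qs (jproj a)).ord (red (v a)) = 1 := hAux.zero_main
  have hzextra : ∀ a, ∀ v' ∈ Zx a, v'.ord (red (v a)) = 1 := hAux.zero_extra
  have hzelse : ∀ a v', v' ≠ r Pinf → v' ≠ Qs (jproj a) → v' ∉ Zx a →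
      v'.ord (red (v a)) = 0 := hAux.zero_else
  -- nonvanishing
  have hv0 : ∀ a, red (v a) ≠ 0 := fun a h => by
    have h1 := hzmain a
    rw [h, Place.ord_zero] at h1
    omega
  have hvF : ∀ a, (v a : F) ≠ 0 := fun a => coe_ne_zero_of_red (hv0 a)
  have hprod0 : ∏ a, red (v a) ≠ 0 := Finset.prod_ne_zero_iff.mpr fun a _ => hv0 a
  have hprodF : ∏ a, (v a : F) ≠ 0 := Finset.prod_ne_zero_iff.mpr fun a _ => hvF a
  have hF0 : red F2 ≠ 0 := by
    rw [hred]
    exact mul_ne_zero ((map_ne_zero _).mpr hγ) hprod0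
  have hF2F : (F2 : F) ≠ 0 := coe_ne_zero_of_red hF0
  have ht0 : ∀ i, red (t i) ≠ 0 := fun i h => by
    have h1 := ht2 i
    rw [h, Place.ord_zero] at h1
    omega
  have htF : ∀ i, (t i : F) ≠ 0 := fun i => coe_ne_zero_of_red (ht0 i)
  -- orders of the reduction of `F2`
  have hordF : ∀ Q : Place k Fk, Q.ord (red F2) = ∑ a, Q.ord (red (v a)) := fun Q => by
    rw [hred, ord_const_mul Q hγ hprod0, ord_prod_of_ne_zero Q _ _ (fun a _ => hv0 a)]
  -- no poles away from `Pinf`
  have hnpv : ∀ a P, P ≠ Pinf → 0 ≤ P.ord (v a : F) := fun a P hP => by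
    have h1 := ord_ge_of_mem_rr_single Pinf (nn a) (hvL a) P
    rwa [if_neg (Ne.symm hP)] at h1
  have hnpF : ∀ P, P ≠ Pinf → 0 ≤ P.ord (F2 : F) := fun P hP => by
    have h1 := ord_ge_of_mem_rr_single Pinf _ hF2L P
    rwa [if_neg (Ne.symm hP)] at h1
  have hne_inf : ∀ P, r P ≠ r Pinf → P ≠ Pinf := fun P h h' => h (by rw [h'])
  -- the reductions at `Qs i`
  have hordQs : ∀ a i, (Qs i).ord (red (v a)) = if jproj a = i then 1 else 0 := by
    intro a i
    split_ifs with h
    · rw [← h]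
      exact hzmain a
    · exact hzelse a (Qs i) (hQne i) (fun h' => h (hQinj h').symm) (hAux.qs_notMem a i)
  have hordFQs : ∀ i, (Qs i).ord (red F2) = 2 := by
    intro i
    rw [hordF]
    simp only [hordQs]
    rw [sum_jproj_ite i (fun _ => (1 : ℤ))]
    norm_num
  -- the coordinate `t i` on the disc of `Qs i`
  have hordt : ∀ i P, r P = Qs i → P.ord (t i : F) = if O i = P then 1 else 0 := by
    intro i P hP
    refine H.ord_eq_single (t i) (ht0 i) (Qs i) (O i) (hO i) 1 (ht2 i) (fun P1 hP1 => ?_) P hP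
    split_ifs with h
    · rw [← h]
      exact ht1 i
    · exact ht3 i P1 hP1
  -- `G i = F2 / t i`
  obtain ⟨G, hGdef⟩ : ∃ G : Fin g → Og, ∀ i, ((G i : Og) : F) = (F2 : F) * (t i : F)⁻¹ :=
    ⟨fun i => ⟨(F2 : F) * (t i : F)⁻¹, Og.mul_mem F2.2 (H.hinv (t i) (ht0 i))⟩, fun i => rfl⟩
  have hGt : ∀ i, G i * t i = F2 := fun i => Subtype.ext (by
    rw [Subring.coe_mul, hGdef, mul_assoc, inv_mul_cancel₀ (htF i), mul_one])
  have hGred : ∀ i, red (G i) * red (t i) = red F2 := fun i => by rw [← map_mul, hGt]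
  have hG0 : ∀ i, red (G i) ≠ 0 := fun i h => by
    have h1 := hGred i
    rw [h, zero_mul] at h1
    exact hF0 h1.symm
  have hGord : ∀ i, (Qs i).ord (red (G i)) = 1 := fun i => by
    have h1 := congrArg (Qs i).ord (hGred i)
    rw [(Qs i).ord_mul (hG0 i) (ht0 i), ht2, hordFQs] at h1
    omega
  have hGF : ∀ (i : Fin g) (P : Place K F),
      P.ord ((G i : Og) : F) = P.ord (F2 : F) - P.ord (t i : F) := fun i P => by
    rw [hGdef]
    exact ord_mul_inv P hF2F (htF i)
  have hGnp : ∀ i P, r P = Qs i → 0 ≤ P.ord ((G i : Og) : F) := by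
    intro i P hP
    rw [hGF, hordt i P hP]
    split_ifs with h
    · have h1 := hF2O i
      rw [h] at h1
      omega
    · have h1 := hnpF P (hne_inf P (by rw [hP]; exact hQne i))
      omega
  choose P'' hP''r hP''1 using fun i => H.exists_zero (G i) (Qs i) (hGord i) (hGnp i)
  have hordG : ∀ i P, r P = Qs i → P.ord ((G i : Og) : F) = if P'' i = P then 1 else 0 := by
    intro i P hP
    refine H.ord_eq_single (G i) (hG0 i) (Qs i) (P'' i) (hP''r i) 1 (hGord i)
      (fun P1 hP1 => ?_) P hP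
    split_ifs with h
    · rw [← h]
      exact hP''1 i
    · exact hGnp i P1 hP1
  have hordF2Qs : ∀ i P, r P = Qs i →
      P.ord (F2 : F) = (if P'' i = P then 1 else 0) + (if O i = P then 1 else 0) := by
    intro i P hP
    have h1 := hGF i P
    rw [hordG i P hP, hordt i P hP] at h1
    omega
  -- the `v a` on the disc of `Qs i`
  have hordvQs : ∀ a i P, r P = Qs i →
      P.ord (v a : F) = if jproj a = i then (if Pt a = P then 1 else 0) else 0 := by
    intro a i P hP
    have hnp : ∀ P1, r P1 = Qs i → 0 ≤ P1.ord (v a : F) := fun P1 hP1 =>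
      hnpv a P1 (hne_inf P1 (by rw [hP1]; exact hQne i))
    by_cases h : jproj a = i
    · rw [if_pos h]
      refine H.ord_eq_single (v a) (hv0 a) (Qs i) (Pt a) (by rw [hPt, h]) 1
        (by rw [hordQs, if_pos h]) (fun P1 hP1 => ?_) P hP
      split_ifs with h1
      · rw [← h1]
        exact hvPt a
      · exact hnp P1 hP1
    · rw [if_neg h]
      exact H.ord_eq_zero (v a) (hv0 a) (Qs i) (by rw [hordQs, if_neg h]) hnp P hP
  -- the disc of `Qinf`
  have hordvInf : ∀ a P, r P = r Pinf →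
      P.ord (v a : F) = if Pinf = P then -(nn a : ℤ) else 0 := by
    intro a P hP
    exact H.ord_eq_single (v a) (hv0 a) (r Pinf) Pinf rfl _ (hpole a)
      (fun P1 _ => ord_ge_of_mem_rr_single Pinf (nn a) (hvL a) P1) P hP
  have hordFInf : ∀ P, r P = r Pinf →
      P.ord (F2 : F) = if Pinf = P then -((∑ a, nn a : ℕ) : ℤ) else 0 := by
    intro P hP
    refine H.ord_eq_single F2 hF0 (r Pinf) Pinf rfl _ ?_
      (fun P1 _ => ord_ge_of_mem_rr_single Pinf _ hF2L P1) P hP
    rw [hordF]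
    simp only [hpole]
    push_cast
    rw [Finset.sum_neg_distrib]
  -- the discs of the extra zeros
  have hZx_ne_inf : ∀ a₀ v', v' ∈ Zx a₀ → v' ≠ r Pinf := by
    rintro a₀ v' hv' rfl
    exact hAux.qinf_notMem a₀ hv'
  have hordZx : ∀ a₀ v', v' ∈ Zx a₀ → ∀ a, v'.ord (red (v a)) = if a = a₀ then 1 else 0 := by
    intro a₀ v' hv' a
    split_ifs with h
    · subst h
      exact hzextra a v' hv'
    · refine hzelse a v' (hZx_ne_inf a₀ v' hv') ?_ ?_
      · rintro rfl
        exact hAux.qs_notMem a₀ _ hv'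
      · intro hmem
        exact Finset.disjoint_left.mp (hAux.disj a a₀ h) hmem hv'
  have hEx : ∀ a₀ v', v' ∈ Zx a₀ → ∃ E, r E = v' ∧ 1 ≤ E.ord (v a₀ : F) := by
    intro a₀ v' hv'
    exact H.exists_zero (v a₀) v' (by rw [hordZx a₀ v' hv', if_pos rfl])
      (fun P1 hP1 => hnpv a₀ P1 (hne_inf P1 (by rw [hP1]; exact hZx_ne_inf a₀ v' hv')))
  -- conclusion
  refine ⟨P'', hP''r, fun i => by rw [← hGdef]; exact hP''1 i, ?_⟩
  refine ⟨(F2 : F) * (∏ a, (v a : F))⁻¹, mul_ne_zero hF2F (inv_ne_zero hprodF), fun P => ?_⟩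
  rw [ord_mul_inv P hF2F hprodF, ord_prod_of_ne_zero P _ _ (fun a _ => hvF a)]
  simp only [Finsupp.sub_apply, Finsupp.finsetSum_apply, Finsupp.single_apply]
  by_cases hQ : ∃ i, r P = Qs i
  · obtain ⟨i, hi⟩ := hQ
    rw [hordF2Qs i P hi]
    simp only [hordvQs _ i P hi]
    rw [sum_jproj_ite i (fun a => if Pt a = P then (1 : ℤ) else 0)]
    have e1 : ∑ j, ((if P'' j = P then (1 : ℤ) else 0) - (if O j = P then 1 else 0)) =
        (if P'' i = P then 1 else 0) - (if O i = P then 1 else 0) := by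
      refine Finset.sum_eq_single i (fun j _ hji => ?_) (fun h => absurd (Finset.mem_univ i) h)
      have h1 : P'' j ≠ P := fun h => hji (hQinj (by rw [← hP''r j, h, hi]))
      have h2 : O j ≠ P := fun h => hji (hQinj (by rw [← hO j, h, hi]))
      rw [if_neg h1, if_neg h2, sub_zero]
    have e2 : ∑ a, ((if Pt a = P then (1 : ℤ) else 0) - (if O (jproj a) = P then 1 else 0)) =
        ∑ a, (if jproj a = i then
          ((if Pt a = P then (1 : ℤ) else 0) - (if O i = P then 1 else 0)) else 0) := by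
      refine Finset.sum_congr rfl fun a _ => ?_
      by_cases h : jproj a = i
      · rw [if_pos h, h]
      · rw [if_neg h]
        have h1 : Pt a ≠ P := fun h' => h (hQinj (by rw [← hPt a, h', hi]))
        have h2 : O (jproj a) ≠ P := fun h' => h (hQinj (by rw [← hO (jproj a), h', hi]))
        rw [if_neg h1, if_neg h2, sub_zero]
    rw [e1, e2, sum_jproj_ite i
      (fun a => (if Pt a = P then (1 : ℤ) else 0) - (if O i = P then 1 else 0))]
    ring
  · have hQ' : ∀ i, r P ≠ Qs i := fun i h => hQ ⟨i, h⟩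
    have e1 : ∑ j, ((if P'' j = P then (1 : ℤ) else 0) - (if O j = P then 1 else 0)) = 0 :=
      Finset.sum_eq_zero fun j _ => by
        have h1 : P'' j ≠ P := fun h => hQ' j (by rw [← h, hP''r])
        have h2 : O j ≠ P := fun h => hQ' j (by rw [← h, hO])
        rw [if_neg h1, if_neg h2, sub_zero]
    have e2 : ∑ a, ((if Pt a = P then (1 : ℤ) else 0) -
        (if O (jproj a) = P then 1 else 0)) = 0 :=
      Finset.sum_eq_zero fun a _ => by
        have h1 : Pt a ≠ P := fun h => hQ' (jproj a) (by rw [← h, hPt])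
        have h2 : O (jproj a) ≠ P := fun h => hQ' (jproj a) (by rw [← h, hO])
        rw [if_neg h1, if_neg h2, sub_zero]
    rw [e1, e2, sub_zero]
    by_cases hinf : r P = r Pinf
    · rw [hordFInf P hinf]
      simp only [hordvInf _ P hinf]
      split_ifs with h
      · push_cast
        rw [Finset.sum_neg_distrib]
        ring
      · simp
    · have hnp : ∀ a P1, r P1 = r P → 0 ≤ P1.ord (v a : F) := fun a P1 hP1 =>
        hnpv a P1 (hne_inf P1 (by rw [hP1]; exact hinf))
      have hnpF' : ∀ P1, r P1 = r P → 0 ≤ P1.ord (F2 : F) := fun P1 hP1 =>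
        hnpF P1 (hne_inf P1 (by rw [hP1]; exact hinf))
      by_cases hz : ∃ a₀, r P ∈ Zx a₀
      · obtain ⟨a₀, ha₀⟩ := hz
        obtain ⟨E, hEr, hE1⟩ := hEx a₀ (r P) ha₀
        have hva : ∀ a, P.ord (v a : F) = if a = a₀ then (if E = P then 1 else 0) else 0 := by
          intro a
          by_cases h : a = a₀
          · subst h
            rw [if_pos rfl]
            refine H.ord_eq_single (v a) (hv0 a) (r P) E hEr 1
              (by rw [hordZx a (r P) ha₀, if_pos rfl]) (fun P1 hP1 => ?_) P rfl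
            split_ifs with h1
            · rw [← h1]
              exact hE1
            · exact hnp a P1 hP1
          · rw [if_neg h]
            exact H.ord_eq_zero (v a) (hv0 a) (r P) (by rw [hordZx a₀ (r P) ha₀, if_neg h])
              (hnp a) P rfl
        have hF2 : P.ord (F2 : F) = if E = P then 1 else 0 := by
          refine H.ord_eq_single F2 hF0 (r P) E hEr 1 ?_ (fun P1 hP1 => ?_) P rfl
          · rw [hordF]
            simp only [hordZx a₀ (r P) ha₀]
            rw [Finset.sum_ite_eq', if_pos (Finset.mem_univ a₀)]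
          · split_ifs with h1
            · rw [← h1]
              exact hF2E a₀ (r P) ha₀ E hEr hE1
            · exact hnpF' P1 hP1
        rw [hF2]
        simp only [hva]
        rw [Finset.sum_ite_eq', if_pos (Finset.mem_univ a₀), sub_self]
      · have hz' : ∀ a, r P ∉ Zx a := fun a h => hz ⟨a, h⟩
        have h0 : ∀ a, (r P).ord (red (v a)) = 0 := fun a =>
          hzelse a (r P) hinf (fun h => hQ' (jproj a) h) (hz' a)
        have hva : ∀ a, P.ord (v a : F) = 0 := fun a =>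
          H.ord_eq_zero (v a) (hv0 a) (r P) (h0 a) (hnp a) P rfl
        have hF2 : P.ord (F2 : F) = 0 :=
          H.ord_eq_zero F2 hF0 (r P) (by rw [hordF]; simp only [h0]; simp) hnpF' P rfl
        rw [hF2]
        simp only [hva]
        simp

/-- **FF-G7-DIV, abstract form with values** (the shape of `ResidualDivisorStatement`). -/
theorem residual_abstract2 {g : ℕ} (H : FibreAx r Og red)
    (hvalue : ∀ (u : Og) (Q : Place k Fk), Q.ord (red u) = 1 →
      (∀ P1, r P1 = Q → 0 ≤ P1.ord (u : F)) → ∀ P, r P = Q → ∀ a : K,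
        1 ≤ P.ord ((u : F) - algebraMap K F a) → (u : F) ≠ algebraMap K F a →
          ∃ v : Og, (v : F) = (u : F) - algebraMap K F a ∧ red v = red u)
    (Qs : Fin g → Place k Fk) (hQinj : Function.Injective Qs)
    (O : Fin g → Place K F) (t : Fin g → Og)
    (hO : ∀ i, r (O i) = Qs i) (ht1 : ∀ i, 1 ≤ (O i).ord (t i : F))
    (ht2 : ∀ i, (Qs i).ord (red (t i)) = 1)
    (ht3 : ∀ i P1, r P1 = Qs i → 0 ≤ P1.ord (t i : F))
    (Pinf : Place K F) (nn : Fin g ⊕ Fin g → ℕ) (u : Fin g ⊕ Fin g → Og)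
    (Zx : Fin g ⊕ Fin g → Finset (Place k Fk))
    (huL : ∀ a, (u a : F) ∈ riemannRochSpace (Finsupp.single Pinf (nn a : ℤ)))
    (hAux : IsAuxFamily Qs (r Pinf) nn (fun a => red (u a)) Zx)
    (Pt : Fin g ⊕ Fin g → Place K F) (α : Fin g ⊕ Fin g → K)
    (hPt : ∀ a, r (Pt a) = Qs (jproj a))
    (hα : ∀ a, Fermat.Agent.H94.FF.HasVal (Pt a) (u a : F) (α a))
    (F2 : Og)
    (hF2L : (F2 : F) ∈ riemannRochSpace (Finsupp.single Pinf (((∑ a, nn a : ℕ)) : ℤ)))
    (hred : ∃ γ : k, γ ≠ 0 ∧ red F2 = algebraMap k Fk γ * ∏ a, red (u a))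
    (hF2O : ∀ i, Fermat.Agent.H94.FF.HasVal (O i) (F2 : F) 0)
    (hF2E : ∀ a, ∀ v' ∈ Zx a, ∀ P1, r P1 = v' →
      Fermat.Agent.H94.FF.HasVal P1 ((u a : F) - algebraMap K F (α a)) 0 →
      Fermat.Agent.H94.FF.HasVal P1 (F2 : F) 0) :
    ∃ P'' : Fin g → Place K F, (∀ i, r (P'' i) = Qs i) ∧
      (∀ i, Fermat.Agent.H94.FF.HasVal (P'' i) ((F2 : F) / (t i : F)) 0) ∧
      ∃ w : F, w ≠ 0 ∧ ∀ P : Place K F,
        P.ord w = ((∑ i, (Finsupp.single (P'' i) (1 : ℤ) - Finsupp.single (O i) 1)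
          - ∑ a, (Finsupp.single (Pt a) (1 : ℤ) - Finsupp.single (O (jproj a)) 1) :
            Divisor K F)) P := by
  obtain ⟨γ, hγ, hredF⟩ := hred
  have hzmain : ∀ a, (Qs (jproj a)).ord (red (u a)) = 1 := hAux.zero_main
  have hu0 : ∀ a, red (u a) ≠ 0 := fun a h => by
    have h1 := hzmain a
    rw [h, Place.ord_zero] at h1
    omega
  -- no poles of `u a` on the disc of `Qs i`
  have hnpu : ∀ a i P1, r P1 = Qs i → 0 ≤ P1.ord (u a : F) := by
    intro a i P1 hP1
    have h1 := ord_ge_of_mem_rr_single Pinf (nn a) (huL a) P1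
    have h2 : Pinf ≠ P1 := by
      rintro rfl
      exact hAux.qinf_ne i hP1.symm
    rwa [if_neg h2] at h1
  -- `u a` is not constant
  have hune : ∀ a (c : K), (u a : F) ≠ algebraMap K F c := by
    intro a c h
    have h1 := H.hmap (u a) (hu0 a) 0 (fun P => by
      rw [h, Fermat.Agent.H23.ord_algebraMap, Finsupp.zero_apply]) (Qs (jproj a))
    rw [Finsupp.mapDomain_zero, Finsupp.zero_apply, hzmain a] at h1
    omega
  have hα1 : ∀ a, 1 ≤ (Pt a).ord ((u a : F) - algebraMap K F (α a)) := fun a =>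
    (hα a).resolve_left (hune a (α a))
  choose v hvcoe hvred using fun a =>
    hvalue (u a) (Qs (jproj a)) (hzmain a) (hnpu a (jproj a)) (Pt a) (hPt a) (α a) (hα1 a)
      (hune a (α a))
  have hvredfun : (fun a => red (v a)) = fun a => red (u a) := funext hvred
  have hAux' : IsAuxFamily Qs (r Pinf) nn (fun a => red (v a)) Zx := by
    rw [hvredfun]
    exact hAux
  have hvL : ∀ a, (v a : F) ∈ riemannRochSpace (Finsupp.single Pinf (nn a : ℤ)) := fun a => by
    rw [hvcoe a]
    refine Submodule.sub_mem _ (huL a) ?_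
    rw [mem_riemannRochSpace_iff]
    intro w
    right
    rw [Fermat.Agent.H23.ord_algebraMap, Finsupp.single_apply]
    split_ifs <;> omega
  have hvPt : ∀ a, 1 ≤ (Pt a).ord (v a : F) := fun a => by
    rw [hvcoe a]
    exact hα1 a
  have hredF' : red F2 = algebraMap k Fk γ * ∏ a, red (v a) := by
    rw [hredF]
    congr 1
    exact Finset.prod_congr rfl fun a _ => (hvred a).symm
  have hF2red : red F2 ≠ 0 := by
    rw [hredF]
    exact mul_ne_zero ((map_ne_zero _).mpr hγ)
      (Finset.prod_ne_zero_iff.mpr fun a _ => hu0 a)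
  have hF2ne : (F2 : F) ≠ 0 := coe_ne_zero_of_red hF2red
  have hzero : ∀ P1 : Place K F, Fermat.Agent.H94.FF.HasVal P1 (F2 : F) 0 →
      1 ≤ P1.ord (F2 : F) := by
    intro P1 h
    rcases h with h | h
    · rw [map_zero] at h
      exact absurd h hF2ne
    · rwa [map_zero, sub_zero] at h
  have hF2O' : ∀ i, 1 ≤ (O i).ord (F2 : F) := fun i => hzero _ (hF2O i)
  have hF2E' : ∀ a, ∀ v' ∈ Zx a, ∀ P1, r P1 = v' →
      1 ≤ P1.ord (v a : F) → 1 ≤ P1.ord (F2 : F) := by
    intro a v' hv' P1 hP1 h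
    refine hzero P1 (hF2E a v' hv' P1 hP1 (Or.inr ?_))
    rw [map_zero, sub_zero, ← hvcoe a]
    exact h
  obtain ⟨P'', h1, h2, w, hw0, hw⟩ := residual_abstract H Qs hQinj O t hO ht1 ht2 ht3
    Pinf nn v Zx hvL hAux' Pt hPt hvPt F2 hF2L γ hγ hredF' hF2O' hF2E'
  refine ⟨P'', h1, fun i => Or.inr ?_, w, hw0, hw⟩
  rw [map_zero, sub_zero, div_eq_mul_inv]
  exact h2 i

end Fibre

end Fermat.Agent.H56.FF
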