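/-
P-FF / FF-G6 (helper56): generic lemmas on places, divisors and `Pic0` used by the construction
of Jacobi coordinates on the kernel of reduction.
-/
import Fermat.Agent.H25.ESD.CoreB
import Fermat.Agent.H23.PlaceBasic

set_option autoImplicit false
set_option linter.style.haveILetI false
set_option linter.unusedSectionVars false

noncomputable section

open AlgebraicCurve Fermat.Agent.H27.ESD

namespace Fermat.Agent.H56.FF

section Generic

variable {K F : Type*} [Field K] [Field F] [Algebra K F]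

/-- equality of classes in `Pic0` -/
theorem pic0_mk_eq_iff (D D' : Divisor.degZero (K := K) (F := F)) :
    Pic0.mk D = Pic0.mk D' ↔
      ((D : Divisor K F) - (D' : Divisor K F)) ∈ Divisor.principal (K := K) (F := F) := by
  unfold Pic0.mk
  rw [QuotientAddGroup.eq_iff_sub_mem, AddSubgroup.mem_addSubgroupOf]
  rfl

/-- "`y(P) = c`", generic form -/
def HasVal (P : Place K F) (y : F) (c : K) : Prop :=
  y = algebraMap K F c ∨ 1 ≤ P.ord (y - algebraMap K F c)

/-- existence of values at places of degree one -/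
theorem hasVal_exists (P : Place K F) (hdeg : P.deg = 1) {y : F} (hy : 0 ≤ P.ord y) :
    ∃ c : K, HasVal P y c := by
  obtain ⟨c, hc⟩ := Fermat.Agent.H23.exists_const_ord_sub_pos P hdeg (Or.inr hy)
  refine ⟨c, ?_⟩
  rcases hc with h | h
  · exact Or.inl h
  · exact Or.inr (by omega)

/-- uniqueness of values -/
theorem hasVal_unique (P : Place K F) {y : F} {a b : K} (ha : HasVal P y a) (hb : HasVal P y b) :
    a = b := by
  by_contra hab
  have hne : algebraMap K F (b - a) ≠ 0 := by
    intro h
    apply hab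
    have h2 := (algebraMap K F).injective (h.trans (map_zero _).symm)
    exact (sub_eq_zero.mp h2).symm
  have h0 : P.ord (algebraMap K F (b - a)) = 0 := Fermat.Agent.H23.ord_algebraMap P _
  rcases ha with ha | ha <;> rcases hb with hb | hb
  · exact hab ((algebraMap K F).injective (ha.symm.trans hb))
  · rw [ha, ← map_sub, ← neg_sub, map_neg, Fermat.Agent.H23.ord_neg, h0] at hb
    omega
  · rw [hb, ← map_sub, ← neg_sub, map_neg, Fermat.Agent.H23.ord_neg,
      Fermat.Agent.H23.ord_algebraMap] at ha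
    omega
  · have hsum : (y - algebraMap K F a) + -(y - algebraMap K F b) = algebraMap K F (b - a) := by
      rw [map_sub]; ring
    have h1 := Fermat.Agent.H23.ord_add_ge P (f := y - algebraMap K F a)
      (g := -(y - algebraMap K F b)) (by rw [hsum]; exact hne) 1 (Or.inr ha)
      (Or.inr (by rw [Fermat.Agent.H23.ord_neg]; exact hb))
    rw [hsum, h0] at h1
    omega

/-- a value of a function with a zero of positive order at a place is never attained as a
constant function -/
theorem ne_algebraMap_of_ord_pos (P : Place K F) {y : F} (hy : 1 ≤ P.ord y) (c : K) :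
    y ≠ algebraMap K F c := by
  intro h
  rw [h, Fermat.Agent.H23.ord_algebraMap] at hy
  omega

/-- `ord (y - c) ≥ 0` if `ord y ≥ 0` -/
theorem ord_sub_algebraMap_nonneg (P : Place K F) {y : F} (hy : 0 ≤ P.ord y) (c : K) :
    0 ≤ P.ord (y - algebraMap K F c) := by
  by_cases h0 : y - algebraMap K F c = 0
  · rw [h0, Place.ord_zero]
  · have h1 := Fermat.Agent.H23.ord_add_ge P (f := y) (g := -algebraMap K F c)
      (by rw [← sub_eq_add_neg]; exact h0) 0 (Or.inr hy)
      (Or.inr (by rw [Fermat.Agent.H23.ord_neg, Fermat.Agent.H23.ord_algebraMap]))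
    rw [← sub_eq_add_neg] at h1
    exact h1

/-- a local parameter has value `0` -/
theorem const_eq_zero_of_ord_one (Q : Place K F) {x : F} (hx : Q.ord x = 1) {c : K}
    (h : HasVal Q x c) : c = 0 := by
  refine hasVal_unique Q h (Or.inr ?_)
  rw [map_zero, sub_zero, hx]

/-- transport of values by a semilinear automorphism -/
theorem hasVal_smul (g : SemilinearAut K F) (P : Place K F) {y : F} {c : K}
    (h : HasVal P y c) : HasVal (g • P) (g • y) (SemilinearAut.baseAut g c) := by
  rcases h with h | h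
  · left
    rw [h, SemilinearAut.smul_algebraMap]
  · right
    have h1 := SemilinearAut.ord_smul g P (y - algebraMap K F c)
    rw [smul_sub, SemilinearAut.smul_algebraMap] at h1
    rw [h1]
    exact h

/-- the action of a semilinear automorphism on `∑ (P i - O i)` -/
theorem smul_sum_sub (g : SemilinearAut K F) {n : ℕ} (P O : Fin n → Place K F) :
    g • (∑ i, (Finsupp.single (P i) (1 : ℤ) - Finsupp.single (O i) 1) : Divisor K F) =
      ∑ i, (Finsupp.single (g • P i) (1 : ℤ) - Finsupp.single (g • O i) 1) := by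
  rw [Finset.smul_sum]
  refine Finset.sum_congr rfl fun i _ => ?_
  rw [smul_sub, SemilinearAut.smul_single, SemilinearAut.smul_single]

end Generic

section Comb

/-- the points of a sum of distinct-fibre points are determined by the sum -/
theorem eq_of_sum_single_eq {α β : Type*} {g : ℕ} (r : α → β) (Qs : Fin g → β)
    (hinj : Function.Injective Qs) (P P' : Fin g → α) (hP : ∀ i, r (P i) = Qs i)
    (hP' : ∀ i, r (P' i) = Qs i)
    (h : ∑ i, Finsupp.single (P i) (1 : ℤ) = ∑ i, Finsupp.single (P' i) (1 : ℤ)) :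
    P = P' := by
  classical
  funext i
  have h1 := DFunLike.congr_fun h (P i)
  simp only [Finsupp.finsetSum_apply, Finsupp.single_apply] at h1
  have hL : 1 ≤ ∑ j, (if P j = P i then (1 : ℤ) else 0) := by
    have h2 := Finset.single_le_sum (f := fun j => if P j = P i then (1 : ℤ) else 0)
      (fun j _ => by split_ifs <;> omega) (Finset.mem_univ i)
    simpa using h2
  rw [h1] at hL
  by_contra hne
  have h0 : ∑ j, (if P' j = P i then (1 : ℤ) else 0) = 0 := by
    refine Finset.sum_eq_zero fun j _ => ?_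
    rw [if_neg]
    intro hj
    have h3 : Qs j = Qs i := by rw [← hP' j, hj, hP i]
    have h4 := hinj h3
    subst h4
    exact hne hj.symm
  omega

/-- pushforward of `∑ (P i - O i)` -/
theorem mapDomain_sum_sub {α β : Type*} {g : ℕ} (r : α → β) (P O : Fin g → α) :
    Finsupp.mapDomain r (∑ i, (Finsupp.single (P i) (1 : ℤ) - Finsupp.single (O i) 1)) =
      ∑ i, (Finsupp.single (r (P i)) (1 : ℤ) - Finsupp.single (r (O i)) 1) := by
  rw [Finsupp.mapDomain_finsetSum]
  refine Finset.sum_congr rfl fun i _ => ?_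
  rw [Finsupp.mapDomain_sub, Finsupp.mapDomain_single, Finsupp.mapDomain_single]

/-- pushforward of `∑ P i` -/
theorem mapDomain_sum_single {α β : Type*} {g : ℕ} (r : α → β) (P : Fin g → α) :
    Finsupp.mapDomain r (∑ i, Finsupp.single (P i) (1 : ℤ)) =
      ∑ i, Finsupp.single (r (P i)) (1 : ℤ) := by
  rw [Finsupp.mapDomain_finsetSum]
  refine Finset.sum_congr rfl fun i _ => ?_
  rw [Finsupp.mapDomain_single]

theorem sum_sub_eq {α : Type*} {g : ℕ} (P O : Fin g → α) :
    (∑ i, (Finsupp.single (P i) (1 : ℤ) - Finsupp.single (O i) 1) : α →₀ ℤ) =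
      ∑ i, Finsupp.single (P i) (1 : ℤ) - ∑ i, Finsupp.single (O i) (1 : ℤ) :=
  Finset.sum_sub_distrib _ _

theorem sum_single_fin_nonneg {α : Type*} {g : ℕ} (P : Fin g → α) :
    (0 : α →₀ ℤ) ≤ ∑ i, Finsupp.single (P i) (1 : ℤ) := by
  classical
  refine Finset.sum_nonneg fun i _ => ?_
  rw [Finsupp.le_def]
  intro v
  rw [Finsupp.zero_apply, Finsupp.single_apply]
  split_ifs <;> omega

end Comb

section Deg

variable {K F : Type*} [Field K] [Field F] [Algebra K F]

theorem degree_sum_single_fin (hdeg : ∀ v : Place K F, v.deg = 1) {g : ℕ}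
    (P : Fin g → Place K F) :
    Divisor.degree (∑ i, Finsupp.single (P i) (1 : ℤ)) = g := by
  rw [map_sum]
  simp only [Divisor.degree_single, hdeg, Nat.cast_one, mul_one]
  rw [Finset.sum_const, Finset.card_univ, Fintype.card_fin, nsmul_eq_mul, mul_one]

theorem degree_sum_sub (hdeg : ∀ v : Place K F, v.deg = 1) {g : ℕ}
    (P O : Fin g → Place K F) :
    Divisor.degree (∑ i, (Finsupp.single (P i) (1 : ℤ) - Finsupp.single (O i) 1)) = 0 := by
  rw [sum_sub_eq, map_sub, degree_sum_single_fin hdeg, degree_sum_single_fin hdeg, sub_self]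

/-- pushforward along any map of places preserves the degree if all places have degree one -/
theorem degree_mapDomain_of_deg_one {K' F' : Type*} [Field K'] [Field F'] [Algebra K' F']
    (hdeg : ∀ v : Place K F, v.deg = 1) (hdeg' : ∀ v : Place K' F', v.deg = 1)
    (f : Place K F → Place K' F') (D : Divisor K F) :
    Divisor.degree (Finsupp.mapDomain f D) = Divisor.degree D := by
  induction D using Finsupp.induction with
  | zero => simp
  | single_add P n D _ _ ih =>
    rw [Finsupp.mapDomain_add, map_add, map_add, ih, Finsupp.mapDomain_single,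
      Divisor.degree_single, Divisor.degree_single, hdeg, hdeg']

/-- an effective divisor of degree `g` whose class contains ... : nonzero element of `L(D)` when
`deg D ≥ g` -/
theorem exists_ne_zero_mem_rrSpace {g : ℕ} (h : RiemannPackage K F g) (D : Divisor K F)
    (hD : (g : ℤ) ≤ Divisor.degree D) : ∃ f : F, f ≠ 0 ∧ f ∈ riemannRochSpace D := by
  haveI := h.finite D
  have h1 := h.riemann D
  have hpos : 0 < Module.finrank K (riemannRochSpace D) := by
    have : (0 : ℤ) < (Module.finrank K (riemannRochSpace D) : ℤ) := by omega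
    exact_mod_cast this
  obtain ⟨⟨f, hfmem⟩, hf0⟩ := Module.finrank_pos_iff_exists_ne_zero.mp hpos
  exact ⟨f, fun h0 => hf0 (Subtype.ext h0), hfmem⟩

end Deg

section Jacobi

variable {K₁ F₁ K₂ F₂ : Type*} [Field K₁] [Field F₁] [Algebra K₁ F₁]
  [Field K₂] [Field F₂] [Algebra K₂ F₂]

/-- **Jacobi inversion on the kernel of reduction** (generic form): every degree-zero divisor
with principal pushforward is linearly equivalent to `∑ (P i - O i)` with `P i` in the fibre of
`Qs i`. -/
theorem exists_rep_generic {g : ℕ} (pkg : RiemannPackage K₁ F₁ g)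
    (r : Place K₁ F₁ → Place K₂ F₂)
    (hprin : ∀ D : Divisor K₁ F₁, D ∈ Divisor.principal (K := K₁) (F := F₁) →
      Finsupp.mapDomain r D ∈ Divisor.principal (K := K₂) (F := F₂))
    (Qs : Fin g → Place K₂ F₂) (hinj : Function.Injective Qs)
    (hfin : Module.finrank K₂ (riemannRochSpace (∑ i, Finsupp.single (Qs i) (1 : ℤ))) = 1)
    (O : Fin g → Place K₁ F₁) (hO : ∀ i, r (O i) = Qs i)
    (D : Divisor K₁ F₁) (hdegD : Divisor.degree D = 0)
    (hD : Finsupp.mapDomain r D ∈ Divisor.principal (K := K₂) (F := F₂)) :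
    ∃ P : Fin g → Place K₁ F₁, (∀ i, r (P i) = Qs i) ∧
      D - ∑ i, (Finsupp.single (P i) (1 : ℤ) - Finsupp.single (O i) 1) ∈
        Divisor.principal (K := K₁) (F := F₁) := by
  classical
  obtain ⟨SO, hSO⟩ : ∃ SO : Divisor K₁ F₁, SO = ∑ i, Finsupp.single (O i) (1 : ℤ) := ⟨_, rfl⟩
  have hdeg₀ : Divisor.degree (D + SO) = g := by
    rw [map_add, hdegD, zero_add, hSO, degree_sum_single_fin pkg.deg_one]
  obtain ⟨f, hf0, hfmem⟩ := exists_ne_zero_mem_rrSpace pkg (D + SO) (by rw [hdeg₀])
  obtain ⟨Df, hDf, hDfdeg⟩ := pkg.principal.exists_divisor f hf0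
  have hDfprin : Df ∈ Divisor.principal (K := K₁) (F := F₁) := ⟨f, hf0, hDf⟩
  obtain ⟨E, hE⟩ : ∃ E : Divisor K₁ F₁, E = D + SO + Df := ⟨_, rfl⟩
  have hEnn : ∀ v, 0 ≤ E v := by
    intro v
    rw [hE, Finsupp.add_apply, hDf v]
    rcases (mem_riemannRochSpace_iff.mp hfmem) v with h | h
    · exact absurd h hf0
    · omega
  have hE0 : (0 : Divisor K₁ F₁) ≤ E := by
    rw [Finsupp.le_def]
    intro v
    rw [Finsupp.zero_apply]
    exact hEnn v
  have hrSO : Finsupp.mapDomain r SO = ∑ i, Finsupp.single (Qs i) (1 : ℤ) := by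
    rw [hSO, mapDomain_sum_single]
    exact Finset.sum_congr rfl fun i _ => by rw [hO i]
  have hrE : Finsupp.mapDomain r E - ∑ i, Finsupp.single (Qs i) (1 : ℤ) ∈
      Divisor.principal (K := K₂) (F := F₂) := by
    have h1 := hprin Df hDfprin
    have h2 := add_mem hD h1
    have h3 : Finsupp.mapDomain r E - ∑ i, Finsupp.single (Qs i) (1 : ℤ) =
        Finsupp.mapDomain r D + Finsupp.mapDomain r Df := by
      rw [hE, Finsupp.mapDomain_add, Finsupp.mapDomain_add, hrSO]
      abel
    rw [h3]
    exact h2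
  have hrEnn : (0 : Divisor K₂ F₂) ≤ Finsupp.mapDomain r E := by
    rw [Finsupp.le_def]
    intro Q
    rw [Finsupp.zero_apply, Finsupp.mapDomain, Finsupp.sum_apply, Finsupp.sum]
    refine Finset.sum_nonneg fun a _ => ?_
    rw [Finsupp.single_apply]
    split_ifs
    · exact hEnn a
    · exact le_rfl
  have hrEeq := Fermat.Agent.H25.ESD.eq_of_effective_of_finrank_one'
    (sum_single_fin_nonneg Qs) hfin hrEnn hrE
  obtain ⟨P, hP, hEP⟩ := Fermat.Agent.H25.ESD.exists_lift_of_mapDomain_eq r hE0 Qs hinj hrEeq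
  refine ⟨P, hP, ?_⟩
  have h4 : D - (∑ i, (Finsupp.single (P i) (1 : ℤ) - Finsupp.single (O i) 1)) = -Df := by
    rw [sum_sub_eq, ← hEP, ← hSO, hE]
    abel
  rw [h4]
  exact neg_mem hDfprin

/-- **uniqueness of the Jacobi representation** (generic form) -/
theorem rep_unique_generic {g : ℕ} (pkg : RiemannPackage K₁ F₁ g)
    (r : Place K₁ F₁ → Place K₂ F₂)
    (hle : ∀ E : Divisor K₁ F₁, Module.finrank K₁ (riemannRochSpace E) ≤
      Module.finrank K₂ (riemannRochSpace (Finsupp.mapDomain r E)))
    (Qs : Fin g → Place K₂ F₂) (hinj : Function.Injective Qs)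
    (hfin : Module.finrank K₂ (riemannRochSpace (∑ i, Finsupp.single (Qs i) (1 : ℤ))) = 1)
    (O : Fin g → Place K₁ F₁)
    (P P' : Fin g → Place K₁ F₁) (hP : ∀ i, r (P i) = Qs i) (hP' : ∀ i, r (P' i) = Qs i)
    (h : (∑ i, (Finsupp.single (P i) (1 : ℤ) - Finsupp.single (O i) 1) : Divisor K₁ F₁) -
      ∑ i, (Finsupp.single (P' i) (1 : ℤ) - Finsupp.single (O i) 1) ∈
        Divisor.principal (K := K₁) (F := F₁)) : P = P' := by
  classical
  obtain ⟨E, hE⟩ : ∃ E : Divisor K₁ F₁, E = ∑ i, Finsupp.single (P i) (1 : ℤ) := ⟨_, rfl⟩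
  obtain ⟨E', hE'⟩ : ∃ E' : Divisor K₁ F₁, E' = ∑ i, Finsupp.single (P' i) (1 : ℤ) := ⟨_, rfl⟩
  have h2 : (∑ i, (Finsupp.single (P i) (1 : ℤ) - Finsupp.single (O i) 1) : Divisor K₁ F₁) -
      ∑ i, (Finsupp.single (P' i) (1 : ℤ) - Finsupp.single (O i) 1) = E - E' := by
    rw [hE, hE', sum_sub_eq, sum_sub_eq]
    abel
  rw [h2] at h
  have hrE' : Finsupp.mapDomain r E' = ∑ i, Finsupp.single (Qs i) (1 : ℤ) := by
    rw [hE', mapDomain_sum_single]
    exact Finset.sum_congr rfl fun i _ => by rw [hP' i]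
  have hle' := hle E'
  rw [hrE', hfin] at hle'
  have hge := pkg.riemann E'
  have hdegE' : Divisor.degree E' = g := by rw [hE', degree_sum_single_fin pkg.deg_one]
  rw [hdegE'] at hge
  have hfinE' : Module.finrank K₁ (riemannRochSpace E') = 1 := by
    have h3 : (1 : ℤ) ≤ (Module.finrank K₁ (riemannRochSpace E') : ℤ) := by omega
    have h4 : 1 ≤ Module.finrank K₁ (riemannRochSpace E') := by exact_mod_cast h3
    omega
  have hE0 : (0 : Divisor K₁ F₁) ≤ E := by rw [hE]; exact sum_single_fin_nonneg P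
  have hE'0 : (0 : Divisor K₁ F₁) ≤ E' := by rw [hE']; exact sum_single_fin_nonneg P'
  have hEE' := Fermat.Agent.H25.ESD.eq_of_effective_of_finrank_one' hE'0 hfinE' hE0 h
  rw [hE, hE'] at hEE'
  exact eq_of_sum_single_eq r Qs hinj P P' hP hP' hEE'

end Jacobi

end Fermat.Agent.H56.FF
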