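/-
P-FF / FF-G6 (helper56): Jacobi coordinates on the kernel of reduction of `J₀(N)`.

`jacCoord : DiscEquivStatement → UnrCoordStatement → JacCoordStatement`.
-/
import Fermat.Agent.H72.FF.GeoBlocks
import Fermat.Agent.H56.FF.JacGeneric

set_option autoImplicit false
set_option synthInstance.maxHeartbeats 400000
set_option linter.style.haveILetI false
set_option linter.unusedSectionVars false

noncomputable section

open AlgebraicCurve ModularCurve Fermat.Agent.H18 Fermat.Agent.H27.ESD Fermat.Agent.H72.FF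
open Fermat.Agent.H10.FF

namespace Fermat.Agent.H56.FF

variable {N ℓ : ℕ} {A : ValuationSubring Qb}
variable {r : Place Qb (FLb N) → Place (kRes A) (Fkb A N)} {g : ℕ}

/-- The kernel of reduction: classes of degree-zero divisors whose pushforward is principal. -/
def redKer (r : Place Qb (FLb N) → Place (kRes A) (Fkb A N)) : AddSubgroup (JZero N) where
  carrier := {c | ∃ D : Divisor.degZero (K := Qb) (F := FLb N), c = Pic0.mk D ∧
    Finsupp.mapDomain r (D : Divisor Qb (FLb N)) ∈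
      Divisor.principal (K := kRes A) (F := Fkb A N)}
  zero_mem' := ⟨0, rfl, by
    rw [ZeroMemClass.coe_zero, Finsupp.mapDomain_zero]
    exact zero_mem _⟩
  add_mem' := by
    rintro _ _ ⟨D, rfl, hD⟩ ⟨E, rfl, hE⟩
    refine ⟨D + E, rfl, ?_⟩
    rw [AddMemClass.coe_add, Finsupp.mapDomain_add]
    exact add_mem hD hE
  neg_mem' := by
    rintro _ ⟨D, rfl, hD⟩
    refine ⟨-D, rfl, ?_⟩
    rw [NegMemClass.coe_neg, ← Finsupp.mapDomain.addMonoidHom_apply, map_neg,
      Finsupp.mapDomain.addMonoidHom_apply]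
    exact neg_mem hD

theorem mem_redKer {c : JZero N} : c ∈ redKer r ↔
    ∃ D : Divisor.degZero (K := Qb) (F := FLb N), c = Pic0.mk D ∧
      Finsupp.mapDomain r (D : Divisor Qb (FLb N)) ∈
        Divisor.principal (K := kRes A) (F := Fkb A N) := Iff.rfl

/-- "`c` is the class of `∑ (P i - O i)` with `P i` in the disc of `Qs i`" -/
def IsRep (r : Place Qb (FLb N) → Place (kRes A) (Fkb A N))
    (Qs : Fin g → Place (kRes A) (Fkb A N)) (O : Fin g → Place Qb (FLb N))
    (c : JZero N) (P : Fin g → Place Qb (FLb N)) : Prop :=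
  ∃ D : Divisor.degZero (K := Qb) (F := FLb N),
    (∀ i, r (P i) = Qs i) ∧
    (D : Divisor Qb (FLb N)) = ∑ i, (Finsupp.single (P i) (1 : ℤ) - Finsupp.single (O i) 1) ∧
    c = Pic0.mk D

/-- the divisor `∑ (P i - O i)` as an element of `Div⁰` -/
def jdiv (hdeg : ∀ v : Place Qb (FLb N), v.deg = 1) (P O : Fin g → Place Qb (FLb N)) :
    Divisor.degZero (K := Qb) (F := FLb N) :=
  ⟨∑ i, (Finsupp.single (P i) (1 : ℤ) - Finsupp.single (O i) 1), degree_sum_sub hdeg P O⟩

theorem coe_jdiv (hdeg : ∀ v : Place Qb (FLb N), v.deg = 1) (P O : Fin g → Place Qb (FLb N)) :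
    ((jdiv hdeg P O : Divisor.degZero (K := Qb) (F := FLb N)) : Divisor Qb (FLb N)) =
      ∑ i, (Finsupp.single (P i) (1 : ℤ) - Finsupp.single (O i) 1) := rfl

theorem isRep_iff (hdeg : ∀ v : Place Qb (FLb N), v.deg = 1)
    {Qs : Fin g → Place (kRes A) (Fkb A N)} {O : Fin g → Place Qb (FLb N)}
    {c : JZero N} {P : Fin g → Place Qb (FLb N)} :
    IsRep r Qs O c P ↔ (∀ i, r (P i) = Qs i) ∧ c = Pic0.mk (jdiv hdeg P O) := by
  constructor
  · rintro ⟨D, hP, hD, rfl⟩
    refine ⟨hP, congrArg Pic0.mk (Subtype.ext ?_)⟩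
    rw [hD, coe_jdiv]
  · rintro ⟨hP, rfl⟩
    exact ⟨jdiv hdeg P O, hP, rfl, rfl⟩

/-- **Jacobi inversion on the kernel of reduction.** -/
theorem exists_rep (hS : GeoSetup N ℓ A r g) (Qs : Fin g → Place (kRes A) (Fkb A N))
    (hinj : Function.Injective Qs)
    (hfin : Module.finrank (kRes A)
      (riemannRochSpace (∑ i, Finsupp.single (Qs i) (1 : ℤ))) = 1)
    (O : Fin g → Place Qb (FLb N)) (hO : ∀ i, r (O i) = Qs i)
    (c : JZero N) (hc : c ∈ redKer r) : ∃ P, IsRep r Qs O c P := by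
  obtain ⟨D, rfl, hD⟩ := hc
  obtain ⟨P, hP, hprin⟩ := exists_rep_generic hS.pkgL r
    (fun D hD => hS.rv.hr.mapDomain_mem_principal hS.rv.hgen hD) Qs hinj hfin O hO
    (D : Divisor Qb (FLb N)) D.2 hD
  refine ⟨P, (isRep_iff hS.pkgL.deg_one).mpr ⟨hP, ?_⟩⟩
  exact (pic0_mk_eq_iff _ _).mpr hprin

/-- conversely -/
theorem mem_redKer_of_isRep {Qs : Fin g → Place (kRes A) (Fkb A N)}
    {O : Fin g → Place Qb (FLb N)} (hO : ∀ i, r (O i) = Qs i)
    {c : JZero N} {P : Fin g → Place Qb (FLb N)} (h : IsRep r Qs O c P) : c ∈ redKer r := by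
  obtain ⟨D, hP, hD, rfl⟩ := h
  refine ⟨D, rfl, ?_⟩
  rw [hD, mapDomain_sum_sub]
  have : (∑ i, (Finsupp.single (r (P i)) (1 : ℤ) - Finsupp.single (r (O i)) 1) :
      Divisor (kRes A) (Fkb A N)) = 0 :=
    Finset.sum_eq_zero fun i _ => by rw [hP i, hO i, sub_self]
  rw [this]
  exact zero_mem _

/-- **uniqueness of the Jacobi representation** -/
theorem rep_unique (hS : GeoSetup N ℓ A r g) (Qs : Fin g → Place (kRes A) (Fkb A N))
    (hinj : Function.Injective Qs)
    (hfin : Module.finrank (kRes A)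
      (riemannRochSpace (∑ i, Finsupp.single (Qs i) (1 : ℤ))) = 1)
    (O : Fin g → Place Qb (FLb N)) (c : JZero N)
    (P P' : Fin g → Place Qb (FLb N)) (h : IsRep r Qs O c P) (h' : IsRep r Qs O c P') :
    P = P' := by
  have hArch := rvArch_algebraicClosure A hS.prime hS.liesOver
  rw [isRep_iff hS.pkgL.deg_one] at h h'
  obtain ⟨hP, hc⟩ := h
  obtain ⟨hP', hc'⟩ := h'
  have h1 := (pic0_mk_eq_iff _ _).mp (hc.symm.trans hc')
  refine rep_unique_generic hS.pkgL r (fun E => ?_) Qs hinj hfin O P P' hP hP' h1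
  haveI := hS.pkgL.finite E
  haveI : Module.Finite (kRes A) (riemannRochSpace (Finsupp.mapDomain r E)) :=
    hS.pkgk.finite _
  exact hS.rv.finrank_rr_le hArch E

/-! ### values of the coordinates -/

/-- value of a function at a place (junk value `0` if there is none) -/
def pval (P : Place Qb (FLb N)) (y : FLb N) : Qb :=
  haveI := Classical.propDecidable
  if h : ∃ c, HasValue P y c then h.choose else 0

theorem hasValue_pval (hdeg : ∀ v : Place Qb (FLb N), v.deg = 1) (P : Place Qb (FLb N))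
    (y : FLb N) (hy : 0 ≤ P.ord y) : HasValue P y (pval P y) := by
  have hex : ∃ c, HasValue P y c := hasVal_exists P (hdeg P) hy
  unfold pval
  rw [dif_pos hex]
  exact hex.choose_spec

/-- the coordinate map -/
def zmap (r : Place Qb (FLb N) → Place (kRes A) (Fkb A N))
    (Qs : Fin g → Place (kRes A) (Fkb A N)) (O : Fin g → Place Qb (FLb N))
    (t : Fin g → gaussRing A N) (c : JZero N) (i : Fin g) : Qb :=
  haveI := Classical.propDecidable
  if h : ∃ P, IsRep r Qs O c P then pval (h.choose i) (t i : FLb N) else 0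

theorem zmap_value (hS : GeoSetup N ℓ A r g) (Qs : Fin g → Place (kRes A) (Fkb A N))
    (hinj : Function.Injective Qs)
    (hfin : Module.finrank (kRes A)
      (riemannRochSpace (∑ i, Finsupp.single (Qs i) (1 : ℤ))) = 1)
    (O : Fin g → Place Qb (FLb N)) (t : Fin g → gaussRing A N)
    (hcoord : ∀ i, IsUnrCoord A N r (Qs i) (O i) (t i))
    (c : JZero N) (P : Fin g → Place Qb (FLb N)) (h : IsRep r Qs O c P) (i : Fin g) :
    HasValue (P i) (t i : FLb N) (zmap r Qs O t c i) := by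
  have hex : ∃ P, IsRep r Qs O c P := ⟨P, h⟩
  have hPeq : hex.choose = P := rep_unique hS Qs hinj hfin O c _ _ hex.choose_spec h
  unfold zmap
  rw [dif_pos hex, hPeq]
  obtain ⟨D, hP, -, -⟩ := h
  exact hasValue_pval hS.pkgL.deg_one (P i) _ ((hcoord i).nopole (P i) (hP i))

/-- the values of an unramified coordinate on its disc lie in the maximal ideal -/
theorem value_mem_nonunits (hS : GeoSetup N ℓ A r g) {Q : Place (kRes A) (Fkb A N)}
    {O₁ : Place Qb (FLb N)} {t : gaussRing A N} (hc : IsUnrCoord A N r Q O₁ t)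
    {P : Place Qb (FLb N)} (hP : r P = Q) {a : Qb} (ha : HasValue P (t : FLb N) a) :
    ∃ haA : a ∈ A, IsLocalRing.residue A ⟨a, haA⟩ = 0 := by
  have hne : (t : FLb N) ≠ algebraMap Qb (FLb N) a := ne_algebraMap_of_ord_pos O₁ hc.zero a
  rcases ha with ha | ha
  · exact absurd ha hne
  obtain ⟨haA, hval⟩ := hS.rv.value_lemma t Q hc.nopole P hP a ha hne
  exact ⟨haA, const_eq_zero_of_ord_one Q hc.simple hval⟩

/-- an unramified coordinate separates the points of its disc -/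
theorem place_eq_of_value_eq (hS : GeoSetup N ℓ A r g) {Q : Place (kRes A) (Fkb A N)}
    {O₁ : Place Qb (FLb N)} {t : gaussRing A N} (hc : IsUnrCoord A N r Q O₁ t)
    {P P' : Place Qb (FLb N)} (hP : r P = Q) (hP' : r P' = Q) {a : Qb}
    (ha : HasValue P (t : FLb N) a) (ha' : HasValue P' (t : FLb N) a) : P' = P := by
  obtain ⟨haA, hπ⟩ := value_mem_nonunits hS hc hP ha
  have hne : (t : FLb N) ≠ algebraMap Qb (FLb N) a := ne_algebraMap_of_ord_pos O₁ hc.zero a
  have h1 : 1 ≤ P.ord ((t : FLb N) - algebraMap Qb (FLb N) a) := ha.resolve_left hne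
  have h1' : 1 ≤ P'.ord ((t : FLb N) - algebraMap Qb (FLb N) a) := ha'.resolve_left hne
  obtain ⟨ca, hca⟩ : ∃ ca : gaussRing A N, ca = ⟨algebraMap Qb (FLb N) a,
      rv_algebraMap_mem_rvRing (A := A) (π := IsLocalRing.residue A) (N := N) ⟨a, haA⟩⟩ :=
    ⟨_, rfl⟩
  have hcared : gaussRed A N ca = 0 := by
    have h := rvRed_algebraMap (A := A) (π := IsLocalRing.residue A) (N := N) ⟨a, haA⟩
    rw [hπ, map_zero] at h
    rw [hca]
    exact h
  have hcaval : (ca : FLb N) = algebraMap Qb (FLb N) a := by rw [hca]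
  have hu : ((t - ca : gaussRing A N) : FLb N) = (t : FLb N) - algebraMap Qb (FLb N) a := by
    rw [← hcaval]
    rfl
  have hred : gaussRed A N (t - ca) = gaussRed A N t := by
    rw [map_sub, hcared, sub_zero]
  have h3 := hS.rv.ord_eq_of_coord Q P hP (t - ca) (by rw [hu]; exact h1)
    (by rw [hred]; exact hc.simple)
    (fun P1 hP1 => by rw [hu]; exact ord_sub_algebraMap_nonneg P1 (hc.nopole P1 hP1) a)
  by_contra hPP
  have h4 := h3.2 P' hP' hPP
  rw [hu] at h4
  omega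

/-! ### Galois action -/

theorem mem_dec_of_mem_inertia {σ : GQ} (h : σ ∈ A.inertiaSubgroupIn ℚ) :
    σ ∈ A.decompositionSubgroup ℚ := by
  obtain ⟨τ, -, rfl⟩ := h
  exact τ.2

theorem smul_mk_jdiv (hdeg : ∀ v : Place Qb (FLb N), v.deg = 1) (σ : GQ)
    (P O : Fin g → Place Qb (FLb N)) :
    σ • (Pic0.mk (jdiv hdeg P O) : JZero N) =
      Pic0.mk (jdiv hdeg (fun i => galF N σ • P i) (fun i => galF N σ • O i)) := by
  rw [ModularCurve.galois_smul_pic0_def, SemilinearAut.pic0_smul_mk]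
  refine congrArg Pic0.mk (Subtype.ext ?_)
  rw [SemilinearAut.coe_degZeroSMulHom, coe_jdiv, coe_jdiv, smul_sum_sub]

theorem redKer_dec_stable (hS : GeoSetup N ℓ A r g) (h1 : DiscEquivStatement)
    (Qs : Fin g → Place (kRes A) (Fkb A N)) (hinj : Function.Injective Qs)
    (hfin : Module.finrank (kRes A)
      (riemannRochSpace (∑ i, Finsupp.single (Qs i) (1 : ℤ))) = 1)
    (O : Fin g → Place Qb (FLb N)) (hO : ∀ i, r (O i) = Qs i)
    (σ : GQ) (hσ : σ ∈ A.decompositionSubgroup ℚ) (c : JZero N) (hc : c ∈ redKer r) :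
    σ • c ∈ redKer r := by
  obtain ⟨P, hrep⟩ := exists_rep hS Qs hinj hfin O hO c hc
  rw [isRep_iff hS.pkgL.deg_one] at hrep
  obtain ⟨hP, rfl⟩ := hrep
  rw [smul_mk_jdiv]
  refine ⟨_, rfl, ?_⟩
  rw [coe_jdiv, mapDomain_sum_sub]
  have h0 : (∑ i, (Finsupp.single (r (galF N σ • P i)) (1 : ℤ) -
      Finsupp.single (r (galF N σ • O i)) 1) : Divisor (kRes A) (Fkb A N)) = 0 :=
    Finset.sum_eq_zero fun i _ => by
      rw [h1 N ℓ A r g hS σ hσ (P i) (O i) ((hP i).trans (hO i).symm), sub_self]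
  rw [h0]
  exact zero_mem _

theorem zmap_equiv (hS : GeoSetup N ℓ A r g) (h1 : DiscEquivStatement)
    (Qs : Fin g → Place (kRes A) (Fkb A N)) (hinj : Function.Injective Qs)
    (hfin : Module.finrank (kRes A)
      (riemannRochSpace (∑ i, Finsupp.single (Qs i) (1 : ℤ))) = 1)
    (O : Fin g → Place Qb (FLb N)) (t : Fin g → gaussRing A N)
    (hcoord : ∀ i, IsUnrCoord A N r (Qs i) (O i) (t i))
    (σ : GQ) (hσ : σ ∈ A.inertiaSubgroupIn ℚ) (c : JZero N) (hc : c ∈ redKer r) (i : Fin g) :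
    zmap r Qs O t (σ • c) i = σ (zmap r Qs O t c i) := by
  have hO : ∀ i, r (O i) = Qs i := fun i => (hcoord i).red
  obtain ⟨P, hrep⟩ := exists_rep hS Qs hinj hfin O hO c hc
  have hv := zmap_value hS Qs hinj hfin O t hcoord c P hrep i
  have hσD := mem_dec_of_mem_inertia hσ
  have hσO : (fun j => galF N σ • O j) = O := funext fun j => (hcoord j).unrP σ hσ
  have hrep' : IsRep r Qs O (σ • c) (fun j => galF N σ • P j) := by
    rw [isRep_iff hS.pkgL.deg_one] at hrep ⊢
    obtain ⟨hP, rfl⟩ := hrep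
    refine ⟨fun j => ?_, ?_⟩
    · rw [h1 N ℓ A r g hS σ hσD (P j) (O j) ((hP j).trans (hO j).symm),
        (hcoord j).unrP σ hσ, hO j]
    · rw [smul_mk_jdiv, hσO]
  have hv' := zmap_value hS Qs hinj hfin O t hcoord (σ • c) _ hrep' i
  have hv'' := hasVal_smul (galF N σ) (P i) hv
  rw [(hcoord i).unrT σ hσ] at hv''
  exact hasVal_unique _ hv' hv''

theorem exists_unr_lift (hS : GeoSetup N ℓ A r g) (h2 : UnrCoordStatement) (x : JZero N) :
    ∃ P₀ : JZero N, (∀ σ ∈ A.inertiaSubgroupIn ℚ, σ • P₀ = P₀) ∧ x - P₀ ∈ redKer r := by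
  classical
  choose s ts hs using h2 N ℓ A r g hS
  obtain ⟨D, rfl⟩ := Pic0.mk_surjective x
  have hdeg' : Finsupp.mapDomain (s ∘ r) (D : Divisor Qb (FLb N)) ∈
      Divisor.degZero (K := Qb) (F := FLb N) := by
    rw [Divisor.mem_degZero, degree_mapDomain_of_deg_one hS.pkgL.deg_one hS.pkgL.deg_one]
    exact D.2
  refine ⟨Pic0.mk ⟨_, hdeg'⟩, fun σ hσ => ?_, ?_⟩
  · rw [ModularCurve.galois_smul_pic0_def, SemilinearAut.pic0_smul_mk]
    refine congrArg Pic0.mk (Subtype.ext ?_)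
    rw [SemilinearAut.coe_degZeroSMulHom]
    show galF N σ • Finsupp.mapDomain (s ∘ r) (D : Divisor Qb (FLb N)) =
      Finsupp.mapDomain (s ∘ r) (D : Divisor Qb (FLb N))
    rw [SemilinearAut.divisor_smul_def, ← Finsupp.mapDomain_comp]
    refine Finsupp.mapDomain_congr fun v _ => ?_
    exact (hs (r v)).unrP σ hσ
  · refine ⟨D - ⟨_, hdeg'⟩, rfl, ?_⟩
    rw [AddSubgroupClass.coe_sub]
    show Finsupp.mapDomain r ((D : Divisor Qb (FLb N)) -
      Finsupp.mapDomain (s ∘ r) (D : Divisor Qb (FLb N))) ∈ _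
    rw [Finsupp.mapDomain_sub, ← Finsupp.mapDomain_comp]
    have h0 : Finsupp.mapDomain (r ∘ s ∘ r) (D : Divisor Qb (FLb N)) =
        Finsupp.mapDomain r (D : Divisor Qb (FLb N)) :=
      Finsupp.mapDomain_congr fun v _ => (hs (r v)).red
    rw [h0, sub_self]
    exact zero_mem _

/-! ### FF-G6 -/

/-- **FF-G6.** -/
theorem jacCoord (h1 : DiscEquivStatement) (h2 : UnrCoordStatement) : JacCoordStatement := by
  intro N ℓ A r g hS
  obtain ⟨Qs, hinj, -, hfin⟩ := Fermat.Agent.H25.ESD.exists_places_finrank_one hS.pkgk ∅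
  choose O t hcoord using fun i => h2 N ℓ A r g hS (Qs i)
  have hO : ∀ i, r (O i) = Qs i := fun i => (hcoord i).red
  refine ⟨Qs, O, t, redKer r, zmap r Qs O t, ⟨hinj, ?_, hcoord⟩, ⟨?_, ?_⟩, ?_, ?_, ?_, ?_, ?_⟩
  · intro f hf
    exact Fermat.Agent.H25.ESD.exists_algebraMap_of_finrank_one (sum_single_fin_nonneg Qs)
      hfin hf
  · intro c
    exact ⟨fun hc => exists_rep hS Qs hinj hfin O hO c hc,
      fun ⟨P, hrep⟩ => mem_redKer_of_isRep hO hrep⟩
  · intro c P D hP hD hc i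
    exact zmap_value hS Qs hinj hfin O t hcoord c P ⟨D, hP, hD, hc⟩ i
  · intro c hc i
    obtain ⟨P, hrep⟩ := exists_rep hS Qs hinj hfin O hO c hc
    have hv := zmap_value hS Qs hinj hfin O t hcoord c P hrep i
    obtain ⟨D, hP, -, -⟩ := hrep
    obtain ⟨haA, hπ⟩ := value_mem_nonunits hS (hcoord i) (hP i) hv
    refine ⟨haA, ?_⟩
    have h3 : ¬ IsUnit (⟨zmap r Qs O t c i, haA⟩ : A) := (hS.rv.hker _).mp hπ
    exact (ValuationSubring.coe_mem_nonunits_iff (a := ⟨zmap r Qs O t c i, haA⟩)).mpr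
      ((IsLocalRing.mem_maximalIdeal _).mpr h3)
  · intro c hc c' hc' hz
    obtain ⟨P, hrep⟩ := exists_rep hS Qs hinj hfin O hO c hc
    obtain ⟨P', hrep'⟩ := exists_rep hS Qs hinj hfin O hO c' hc'
    have hPP : P' = P := by
      funext i
      have hv := zmap_value hS Qs hinj hfin O t hcoord c P hrep i
      have hv' := zmap_value hS Qs hinj hfin O t hcoord c' P' hrep' i
      rw [← hz] at hv'
      obtain ⟨D, hP, -, -⟩ := hrep
      obtain ⟨D', hP', -, -⟩ := hrep'
      exact place_eq_of_value_eq hS (hcoord i) (hP i) (hP' i) hv hv'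
    rw [isRep_iff hS.pkgL.deg_one] at hrep hrep'
    rw [hrep.2, hrep'.2, hPP]
  · intro σ hσ c hc
    exact redKer_dec_stable hS h1 Qs hinj hfin O hO σ hσ c hc
  · intro σ hσ c hc i
    exact zmap_equiv hS h1 Qs hinj hfin O t hcoord σ hσ c hc i
  · intro x
    exact exists_unr_lift hS h2 x

end Fermat.Agent.H56.FF
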