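/-
P-FF / FF-G7-DIV (helper56): the residual divisor (row 775).

`residualDivisor : ResidualDivisorStatement` (unconditional), by instantiating the abstract
fibre-by-fibre bookkeeping of `ResDivAbs` at the Gauss ring.
-/
import Fermat.Agent.H56.FF.ResDivAbs
import Fermat.Agent.H56.FF.JacGeneric

set_option autoImplicit false
set_option synthInstance.maxHeartbeats 400000
set_option linter.style.haveILetI false
set_option linter.unusedSectionVars false

noncomputable section

open AlgebraicCurve ModularCurve Fermat.Agent.H18 Fermat.Agent.H27.ESD Fermat.Agent.H72.FF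
open Fermat.Agent.H10.FF Fermat.Agent.H94.FF

namespace Fermat.Agent.H56.FF

variable {N ℓ : ℕ} {A : ValuationSubring Qb}
variable {r : Place Qb (FLb N) → Place (kRes A) (Fkb A N)} {g : ℕ}

/-- the Gauss ring satisfies the fibre axioms -/
theorem fibreAx_gauss (hS : GeoSetup N ℓ A r g) :
    FibreAx r (gaussRing A N) (gaussRed A N) where
  hdiv := hS.rv.hdiv
  hmap := fun f hf D hD Q => hS.rv.mapDomain_eq f hf D hD Q
  hinv := fun _ hf => inv_mem_rvRing_of_red_ne_zero hf

/-- the value lemma in the form used by the abstract bookkeeping -/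
theorem gauss_hvalue (hS : GeoSetup N ℓ A r g) (u : gaussRing A N)
    (Q : Place (kRes A) (Fkb A N)) (hQ : Q.ord (gaussRed A N u) = 1)
    (hnp : ∀ P1, r P1 = Q → 0 ≤ P1.ord (u : FLb N))
    (P : Place Qb (FLb N)) (hP : r P = Q) (a : Qb)
    (h1 : 1 ≤ P.ord ((u : FLb N) - algebraMap Qb (FLb N) a))
    (hne : (u : FLb N) ≠ algebraMap Qb (FLb N) a) :
    ∃ v : gaussRing A N, (v : FLb N) = (u : FLb N) - algebraMap Qb (FLb N) a ∧
      gaussRed A N v = gaussRed A N u := by
  obtain ⟨hcA, hval⟩ := hS.rv.value_lemma u Q hnp P hP a h1 hne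
  have hπ : IsLocalRing.residue A ⟨a, hcA⟩ = 0 := const_eq_zero_of_ord_one Q hQ hval
  refine ⟨u - gaussConst A N ⟨a, hcA⟩, rfl, ?_⟩
  rw [map_sub, gaussRed_gaussConst, hπ, map_zero, sub_zero]

/-- **FF-G7-DIV** (row 775), unconditional. -/
theorem residualDivisor : ResidualDivisorStatement := by
  intro N ℓ A r g hS Qs O t hsys Pinf nn u Zx huL hAux Pt α hPt hα F2 hF2L hred hF2O hF2E
  exact residual_abstract2 (fibreAx_gauss hS) (gauss_hvalue hS) Qs hsys.inj O t
    (fun i => (hsys.coord i).red) (fun i => (hsys.coord i).zero)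
    (fun i => (hsys.coord i).simple) (fun i => (hsys.coord i).nopole) Pinf nn u Zx huL hAux
    Pt (fun a => (α a : Qb)) hPt hα F2 hF2L hred hF2O hF2E

/-- the form asked for in the row (the hypothesis is not used) -/
theorem residualDivisor' (_hZ : DiscZeroStatement) : ResidualDivisorStatement :=
  residualDivisor

end Fermat.Agent.H56.FF
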